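import Fermat.Agent.HeckeFE.Poisson
import Mathlib.Analysis.Matrix.Order
import Mathlib.Analysis.Complex.LocallyUniformLimit

/-!
# Theta series of even unimodular forms

`θ(z) = ∑ exp (π i z q(v))` for an even positive form of determinant one: it has period one and
`θ(-1/z) = (-i z)^(n/2) θ(z)`, so `8 ∣ n`.
-/

set_option autoImplicit false

noncomputable section

namespace FA.UnimodularTheta

open Complex Matrix Filter
open scoped Real Topology

variable {n : ℕ}

/-- The value of the form. -/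
def normQ (Q : Matrix (Fin n) (Fin n) ℤ) (v : Fin n → ℤ) : ℤ := v ⬝ᵥ Q *ᵥ v

/-- Even, symmetric, positive, of determinant one. -/
structure IsEvenUnimodular (Q : Matrix (Fin n) (Fin n) ℤ) : Prop where
  symm : Qᵀ = Q
  even : ∀ i, Even (Q i i)
  pos : ∀ v : Fin n → ℤ, v ≠ 0 → 0 < normQ Q v
  det_eq : Q.det = 1

theorem normQ_nonneg {Q : Matrix (Fin n) (Fin n) ℤ} (hQ : IsEvenUnimodular Q) (v : Fin n → ℤ) :
    0 ≤ normQ Q v := by
  rcases eq_or_ne v 0 with rfl | hv
  · simp [normQ]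
  · exact (hQ.pos v hv).le

theorem normQ_even {Q : Matrix (Fin n) (Fin n) ℤ} (hQ : IsEvenUnimodular Q) (v : Fin n → ℤ) :
    Even (normQ Q v) := by
  rw [even_iff_two_dvd, show (2 : ℤ) = ((2 : ℕ) : ℤ) from rfl,
    ← ZMod.intCast_zmod_eq_zero_iff_dvd]
  have e : normQ Q v = ∑ x : Fin n × Fin n, v x.1 * Q x.1 x.2 * v x.2 := by
    simp only [normQ, Matrix.mulVec, dotProduct, Finset.mul_sum, Fintype.sum_prod_type, mul_assoc]
  rw [e, Int.cast_sum]
  refine Finset.sum_involution (fun x _ => x.swap) (fun x _ => ?_) (fun x _ hx => ?_)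
    (fun x _ => Finset.mem_univ _) (fun x _ => Prod.swap_swap x)
  · have hs : Q x.2 x.1 = Q x.1 x.2 := congrFun (congrFun hQ.symm x.1) x.2
    simp only [Prod.fst_swap, Prod.snd_swap, hs]
    rw [show v x.2 * Q x.1 x.2 * v x.1 = v x.1 * Q x.1 x.2 * v x.2 by ring]
    exact CharTwo.add_self_eq_zero _
  · intro h
    have h1 : x.2 = x.1 := congrArg Prod.fst h
    refine hx ?_
    obtain ⟨k, hk⟩ := hQ.even x.1
    rw [h1, hk, Int.cast_mul, Int.cast_mul, Int.cast_add, CharTwo.add_self_eq_zero, mul_zero,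
      zero_mul]

/-- Half the value. -/
def halfNorm (Q : Matrix (Fin n) (Fin n) ℤ) (v : Fin n → ℤ) : ℕ := (normQ Q v / 2).toNat

theorem two_mul_halfNorm {Q : Matrix (Fin n) (Fin n) ℤ} (hQ : IsEvenUnimodular Q)
    (v : Fin n → ℤ) : normQ Q v = 2 * (halfNorm Q v : ℤ) := by
  obtain ⟨k, hk⟩ := normQ_even hQ v
  have := normQ_nonneg hQ v
  rw [halfNorm, hk, Int.toNat_of_nonneg (by omega)]
  omega

/-- The real matrix of the form. -/
def realMat (Q : Matrix (Fin n) (Fin n) ℤ) : Matrix (Fin n) (Fin n) ℝ :=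
  Q.map (Int.cast : ℤ → ℝ)

theorem realMat_normQ (Q : Matrix (Fin n) (Fin n) ℤ) (v : Fin n → ℤ) :
    HeckeFE.ofInt v ⬝ᵥ realMat Q *ᵥ HeckeFE.ofInt v = (normQ Q v : ℝ) := by
  simp [normQ, realMat, Matrix.mulVec, dotProduct, HeckeFE.ofInt]

theorem posSemidef_realMat {Q : Matrix (Fin n) (Fin n) ℤ} (hs : Qᵀ = Q)
    (hp : ∀ v, 0 ≤ normQ Q v) : (realMat Q).PosSemidef := by
  have hherm : (realMat Q).IsHermitian := by
    ext i j
    simp [realMat, congrFun (congrFun hs i) j |>.symm]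
  have hrat : ∀ u : Fin n → ℚ,
      0 ≤ (fun i => (u i : ℝ)) ⬝ᵥ realMat Q *ᵥ fun i => (u i : ℝ) := by
    intro u
    set D : ℕ := ∏ i, (u i).den
    have hD : (0 : ℝ) < D := Nat.cast_pos.2 (Finset.prod_pos fun i _ => (u i).den_pos)
    have hdvd : ∀ i, (u i).den ∣ D := fun i =>
      Finset.dvd_prod_of_mem (fun i => (u i).den) (Finset.mem_univ i)
    set w : Fin n → ℤ := fun i => (u i).num * ((D / (u i).den : ℕ) : ℤ)
    have hw : (fun i => (u i : ℝ)) = (D : ℝ)⁻¹ • HeckeFE.ofInt w := by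
      funext i
      have h0 : ((u i).den : ℝ) ≠ 0 := Nat.cast_ne_zero.2 (u i).den_pos.ne'
      simp only [Pi.smul_apply, HeckeFE.ofInt, smul_eq_mul, w, Int.cast_mul, Int.cast_natCast]
      rw [Nat.cast_div (hdvd i) h0, Rat.cast_def]
      field_simp
    rw [hw, Matrix.mulVec_smul, dotProduct_smul, smul_dotProduct, realMat_normQ, smul_eq_mul,
      smul_eq_mul]
    exact mul_nonneg (inv_nonneg.2 hD.le)
      (mul_nonneg (inv_nonneg.2 hD.le) (Int.cast_nonneg (hp w)))
  refine Matrix.PosSemidef.of_dotProduct_mulVec_nonneg hherm fun x => ?_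
  rw [star_trivial]
  refine (DenseRange.piMap (fun _ : Fin n => Rat.denseRange_cast (𝕜 := ℝ))).induction_on x ?_ hrat
  exact isClosed_le continuous_const
    (continuous_id.dotProduct (continuous_const.matrix_mulVec continuous_id))

theorem posDef_realMat {Q : Matrix (Fin n) (Fin n) ℤ} (hQ : IsEvenUnimodular Q) :
    (realMat Q).PosDef := by
  refine (posSemidef_realMat hQ.symm (normQ_nonneg hQ)).posDef_iff_det_ne_zero.2 ?_
  rw [show realMat Q = (Int.castRingHom ℝ).mapMatrix Q from rfl, ← RingHom.map_det, hQ.det_eq]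
  simp

/-- For a symmetric positive form, a determinant which is a unit is `1`. -/
theorem IsEvenUnimodular.of_isUnit {Q : Matrix (Fin n) (Fin n) ℤ} (hs : Qᵀ = Q)
    (he : ∀ i, Even (Q i i)) (hp : ∀ v : Fin n → ℤ, v ≠ 0 → 0 < normQ Q v) (hu : IsUnit Q) :
    IsEvenUnimodular Q := by
  refine ⟨hs, he, hp, ?_⟩
  have h0 : 0 ≤ (realMat Q).det := (posSemidef_realMat hs fun v => by
    rcases eq_or_ne v 0 with rfl | hv
    · simp [normQ]
    · exact (hp v hv).le).det_nonneg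
  rw [show realMat Q = (Int.castRingHom ℝ).mapMatrix Q from rfl, ← RingHom.map_det] at h0
  rcases Int.isUnit_iff.1 ((Matrix.isUnit_iff_isUnit_det _).1 hu) with h | h
  · exact h
  · rw [h] at h0
    norm_num at h0

theorem exists_sqrt {Q : Matrix (Fin n) (Fin n) ℤ} (hQ : IsEvenUnimodular Q) :
    ∃ L : Matrix (Fin n) (Fin n) ℝ, Lᵀ * L = realMat Q ∧ |L.det| = 1 := by
  open scoped MatrixOrder in
  obtain ⟨L, hL⟩ :=
    CStarAlgebra.nonneg_iff_eq_star_mul_self.mp (posDef_realMat hQ).posSemidef.nonneg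
  rw [Matrix.star_eq_conjTranspose, Matrix.conjTranspose_eq_transpose_of_trivial] at hL
  refine ⟨L, hL.symm, ?_⟩
  have h := congrArg Matrix.det hL
  rw [Matrix.det_mul, Matrix.det_transpose,
    show realMat Q = (Int.castRingHom ℝ).mapMatrix Q from rfl, ← RingHom.map_det, hQ.det_eq,
    map_one] at h
  rcases mul_self_eq_one_iff.1 h.symm with h | h <;> simp [h]

theorem gauss_sqrt {Q : Matrix (Fin n) (Fin n) ℤ} {L : Matrix (Fin n) (Fin n) ℝ}
    (hL : Lᵀ * L = realMat Q) (c : ℝ) (v : Fin n → ℤ) :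
    HeckeFE.gauss (c • L) (HeckeFE.ofInt v) = Real.exp (-(π * c ^ 2 * normQ Q v)) := by
  have h : ∑ i, ((c • L) *ᵥ HeckeFE.ofInt v) i ^ 2 = c ^ 2 * normQ Q v := by
    rw [← realMat_normQ, ← hL, ← Matrix.mulVec_mulVec, Matrix.dotProduct_mulVec,
      Matrix.vecMul_transpose]
    simp only [dotProduct, Finset.mul_sum, Matrix.smul_mulVec, Pi.smul_apply, smul_eq_mul]
    exact Finset.sum_congr rfl fun i _ => by ring
  rw [HeckeFE.gauss, h]
  ring_nf

theorem summable_exp_normQ {Q : Matrix (Fin n) (Fin n) ℤ} (hQ : IsEvenUnimodular Q) {a : ℝ}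
    (ha : 0 < a) : Summable fun v : Fin n → ℤ => Real.exp (-(π * a * normQ Q v)) := by
  obtain ⟨L, hL, hdet⟩ := exists_sqrt hQ
  have hs : √a ≠ 0 := (Real.sqrt_pos.2 ha).ne'
  have hu : IsUnit (√a • L).det := by
    rw [Matrix.det_smul, isUnit_iff_ne_zero]
    refine mul_ne_zero (pow_ne_zero _ hs) fun h => ?_
    simp [h] at hdet
  refine (HeckeFE.summable_gauss (L := √a • L) (N := ((√a • L)⁻¹)ᵀ) (by
    rw [Matrix.transpose_transpose, Matrix.nonsing_inv_mul _ hu])).congr fun v => ?_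
  rw [gauss_sqrt hL, Real.sq_sqrt ha.le]

/-- The theta series. -/
def theta (Q : Matrix (Fin n) (Fin n) ℤ) (z : ℂ) : ℂ :=
  ∑' v : Fin n → ℤ, cexp (π * I * normQ Q v * z)

theorem norm_term (Q : Matrix (Fin n) (Fin n) ℤ) (v : Fin n → ℤ) (z : ℂ) :
    ‖cexp (π * I * normQ Q v * z)‖ = Real.exp (-(π * z.im * normQ Q v)) := by
  rw [Complex.norm_exp]
  congr 1
  simp
  ring

theorem summable_term {Q : Matrix (Fin n) (Fin n) ℤ} (hQ : IsEvenUnimodular Q) {z : ℂ}
    (hz : 0 < z.im) : Summable fun v : Fin n → ℤ => cexp (π * I * normQ Q v * z) :=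
  Summable.of_norm ((summable_exp_normQ hQ hz).congr fun v => (norm_term Q v z).symm)

theorem differentiableAt_theta {Q : Matrix (Fin n) (Fin n) ℤ} (hQ : IsEvenUnimodular Q) {z : ℂ}
    (hz : 0 < z.im) : DifferentiableAt ℂ (theta Q) z := by
  have hU : IsOpen {w : ℂ | z.im / 2 < w.im} := isOpen_lt continuous_const Complex.continuous_im
  refine (differentiableOn_tsum_of_summable_norm (summable_exp_normQ hQ (half_pos hz))
    (fun v => by fun_prop) hU fun v w hw => ?_).differentiableAt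
    (hU.mem_nhds (show z.im / 2 < z.im by linarith))
  rw [norm_term]
  refine Real.exp_le_exp.2 (neg_le_neg ?_)
  exact mul_le_mul_of_nonneg_right (mul_le_mul_of_nonneg_left (le_of_lt hw) Real.pi_pos.le)
    (Int.cast_nonneg (normQ_nonneg hQ v))

theorem theta_add_one {Q : Matrix (Fin n) (Fin n) ℤ} (hQ : IsEvenUnimodular Q) (z : ℂ) :
    theta Q (z + 1) = theta Q z := by
  refine tsum_congr fun v => ?_
  rw [mul_add, mul_one, Complex.exp_add, two_mul_halfNorm hQ v]
  push_cast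
  rw [show (π : ℂ) * I * (2 * (halfNorm Q v : ℂ)) = (halfNorm Q v : ℕ) * (2 * π * I) by ring,
    Complex.exp_nat_mul_two_pi_mul_I, mul_one]

theorem theta_ray (Q : Matrix (Fin n) (Fin n) ℤ) (t : ℝ) :
    theta Q (t * I) = ((∑' v : Fin n → ℤ, Real.exp (-(π * t * normQ Q v)) : ℝ) : ℂ) := by
  rw [Complex.ofReal_tsum]
  refine tsum_congr fun v => ?_
  rw [Complex.ofReal_exp]
  congr 1
  push_cast
  linear_combination ((π : ℂ) * t * (normQ Q v : ℂ)) * I_sq

theorem theta_inversion_ray {Q : Matrix (Fin n) (Fin n) ℤ} (hQ : IsEvenUnimodular Q) {t : ℝ}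
    (ht : 0 < t) :
    ∑' v : Fin n → ℤ, Real.exp (-(π * t⁻¹ * normQ Q v)) =
      √t ^ n * ∑' v : Fin n → ℤ, Real.exp (-(π * t * normQ Q v)) := by
  obtain ⟨L, hL, hdet⟩ := exists_sqrt hQ
  have hs : √t ≠ 0 := (Real.sqrt_pos.2 ht).ne'
  have hu : IsUnit L.det := isUnit_iff_ne_zero.2 fun h => by simp [h] at hdet
  have hQu : IsUnit Q.det := by rw [hQ.det_eq]; exact isUnit_one
  have h := HeckeFE.gauss_poisson (L := √t • L) (N := (√t)⁻¹ • (L⁻¹)ᵀ) (by
    rw [Matrix.transpose_smul, Matrix.transpose_transpose, Matrix.smul_mul, Matrix.mul_smul,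
      smul_smul, inv_mul_cancel₀ hs, Matrix.nonsing_inv_mul _ hu, one_smul])
  let e : (Fin n → ℤ) ≃ (Fin n → ℤ) :=
    { toFun := fun v => Q *ᵥ v
      invFun := fun v => Q⁻¹ *ᵥ v
      left_inv := fun v => by
        simp [Matrix.mulVec_mulVec, Matrix.nonsing_inv_mul _ hQu]
      right_inv := fun v => by
        simp [Matrix.mulVec_mulVec, Matrix.mul_nonsing_inv _ hQu] }
  have hdual : ∀ v : Fin n → ℤ, HeckeFE.gauss ((√t)⁻¹ • (L⁻¹)ᵀ) (HeckeFE.ofInt (e v)) =
      Real.exp (-(π * t⁻¹ * normQ Q v)) := fun v => by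
    have e1 : HeckeFE.ofInt (e v) = realMat Q *ᵥ HeckeFE.ofInt v := by
      funext i
      simp [e, realMat, Matrix.mulVec, dotProduct, HeckeFE.ofInt]
    have e2 : ((√t)⁻¹ • (L⁻¹)ᵀ) *ᵥ HeckeFE.ofInt (e v) = ((√t)⁻¹ • L) *ᵥ HeckeFE.ofInt v := by
      rw [e1, Matrix.mulVec_mulVec, ← hL, Matrix.smul_mul, ← Matrix.mul_assoc,
        ← Matrix.transpose_mul, Matrix.mul_nonsing_inv _ hu, Matrix.transpose_one, Matrix.one_mul]
    have e3 := gauss_sqrt hL (√t)⁻¹ v
    rw [inv_pow, Real.sq_sqrt ht.le] at e3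
    rw [← e3, HeckeFE.gauss, HeckeFE.gauss, e2]
  rw [← e.tsum_eq (fun m => HeckeFE.gauss ((√t)⁻¹ • (L⁻¹)ᵀ) (HeckeFE.ofInt m))] at h
  simp only [hdual, gauss_sqrt hL, Real.sq_sqrt ht.le, Matrix.det_smul, abs_mul, hdet, mul_one,
    Fintype.card_fin, abs_pow, abs_of_nonneg (Real.sqrt_nonneg t)] at h
  rw [h, ← mul_assoc, mul_inv_cancel₀ (pow_ne_zero _ hs), one_mul]

theorem theta_inversion {Q : Matrix (Fin n) (Fin n) ℤ} (hQ : IsEvenUnimodular Q) {z : ℂ}
    (hz : 0 < z.im) : theta Q (-1 / z) = (-I * z) ^ ((n : ℂ) / 2) * theta Q z := by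
  set U : Set ℂ := {w | 0 < w.im}
  have hUo : IsOpen U := isOpen_lt continuous_const Complex.continuous_im
  have him : ∀ w ∈ U, 0 < (-1 / w).im := fun w (hw : 0 < w.im) => by
    have h0 : w ≠ 0 := fun h => by simp [h] at hw
    rw [neg_div, one_div, Complex.neg_im, Complex.inv_im, neg_div, neg_neg]
    exact div_pos hw (Complex.normSq_pos.2 h0)
  set F : ℂ → ℂ := fun w => theta Q (-1 / w) - (-I * w) ^ ((n : ℂ) / 2) * theta Q w with hF
  have hd : DifferentiableOn ℂ F U := fun w (hw : 0 < w.im) => by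
    have h0 : w ≠ 0 := fun h => by simp [h] at hw
    refine DifferentiableAt.differentiableWithinAt (DifferentiableAt.sub ?_ (DifferentiableAt.mul
      (DifferentiableAt.cpow (by fun_prop) (by fun_prop) (Or.inl ?_))
      (differentiableAt_theta hQ hw)))
    · exact (differentiableAt_theta hQ (him w hw)).comp w
        ((differentiableAt_const _).div differentiableAt_id h0)
    · simpa using hw
  have hray : ∀ t : ℝ, 0 < t → F (t * I) = 0 := fun t ht => by
    have e1 : (-1 : ℂ) / (t * I) = ((t⁻¹ : ℝ) : ℂ) * I := by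
      have ht0 : (t : ℂ) ≠ 0 := ofReal_ne_zero.2 ht.ne'
      rw [div_eq_iff (mul_ne_zero ht0 I_ne_zero), ofReal_inv, mul_mul_mul_comm,
        inv_mul_cancel₀ ht0, one_mul, I_mul_I]
    have e2 : (-I * ((t : ℂ) * I)) ^ ((n : ℂ) / 2) = ((√t ^ n : ℝ) : ℂ) := by
      rw [show -I * ((t : ℂ) * I) = ((t : ℝ) : ℂ) by linear_combination -(t : ℂ) * I_sq,
        show (n : ℂ) / 2 = (((n : ℝ) / 2 : ℝ) : ℂ) by push_cast; ring,
        ← Complex.ofReal_cpow ht.le, Real.sqrt_eq_rpow, ← Real.rpow_natCast (t ^ (1 / 2 : ℝ)),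
        ← Real.rpow_mul ht.le]
      ring_nf
    simp only [hF]
    rw [e1, theta_ray, theta_ray, e2, theta_inversion_ray hQ ht]
    push_cast
    ring
  have hI : Tendsto (fun t : ℝ => (t : ℂ) * I) (𝓝[≠] 1) (𝓝[≠] I) := by
    refine tendsto_nhdsWithin_iff.2 ⟨?_, eventually_nhdsWithin_of_forall fun t ht h => ht ?_⟩
    · have hc : Continuous fun t : ℝ => (t : ℂ) * I := by fun_prop
      simpa using (hc.tendsto 1).mono_left nhdsWithin_le_nhds
    · simpa using congrArg Complex.im (Set.mem_singleton_iff.1 h)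
  have hfr : ∃ᶠ w in 𝓝[≠] I, F w = 0 := by
    refine hI.frequently (Eventually.frequently ?_)
    filter_upwards [nhdsWithin_le_nhds (lt_mem_nhds (zero_lt_one' ℝ))] with t ht using hray t ht
  exact sub_eq_zero.1 ((hd.analyticOnNhd hUo).eqOn_zero_of_preconnected_of_frequently_eq_zero
    (convex_halfSpace_im_gt 0).isPreconnected (show I ∈ U by simp [U]) hfr hz)

theorem eight_dvd {Q : Matrix (Fin n) (Fin n) ℤ} (hQ : IsEvenUnimodular Q) : 8 ∣ n := by
  by_contra h8
  obtain ⟨m, j, hm⟩ : ∃ m j : ℕ, n * m = 8 * j + 4 := by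
    rcases Nat.even_or_odd n with ⟨a, rfl⟩ | ⟨a, rfl⟩
    · rcases Nat.even_or_odd a with ⟨b, rfl⟩ | ⟨b, rfl⟩
      · exact ⟨1, b / 2, by omega⟩
      · exact ⟨2, b, by omega⟩
    · exact ⟨4, a, by omega⟩
  set F : ℂ → ℂ := fun w => theta Q w ^ m with hF
  have hS : ∀ w : ℂ, 0 < w.im → F (-1 / w) = -(w ^ (4 * j + 2)) * F w := fun w hw => by
    simp only [hF]
    rw [theta_inversion hQ hw, mul_pow, ← Complex.cpow_nat_mul,
      show (m : ℂ) * ((n : ℂ) / 2) = ((4 * j + 2 : ℕ) : ℂ) by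
        have : (n : ℂ) * m = 8 * j + 4 := by exact_mod_cast hm
        push_cast
        linear_combination this / 2,
      Complex.cpow_natCast, mul_pow, pow_add (-I), pow_mul (-I),
      show (-I) ^ 4 = 1 by rw [neg_pow, Complex.I_pow_four]; ring, one_pow, neg_sq, I_sq]
    ring
  have hT : ∀ w : ℂ, F (w + 1) = F w := fun w => by simp only [hF, theta_add_one hQ]
  -- `(S T)³ = ± 1` at the point `1 + i`
  have h0 : F I = 0 := by
    have a1 := hS I (by simp)
    have a2 := hS (-1 / I + 1) (by simp)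
    have a3 := hS (I - 1) (by simp)
    have e1 : -1 / (-1 / I + 1) + 1 = -1 / (I - 1) := by
      have h1 : I - 1 ≠ 0 := fun h => by simpa using congrArg Complex.im h
      have h2 : 1 + I ≠ 0 := fun h => by simpa using congrArg Complex.im h
      rw [show -1 / I + 1 = 1 + I by rw [div_I]; ring, div_add_one h2,
        div_eq_div_iff h2 h1]
      linear_combination I_sq
    have e2 : F (I - 1) = F I := by
      conv_rhs => rw [← sub_add_cancel I 1, hT]
    rw [← hT (-1 / (-1 / I + 1)), e1, a3, e2, hT, a1] at a2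
    have h1 : (I - 1) ^ (4 * j + 2) * F I = 0 := by
      have e3 : (-1 / I + 1) ^ (4 * j + 2) * I ^ (4 * j + 2) = (I - 1) ^ (4 * j + 2) := by
        rw [← mul_pow]
        congr 1
        field_simp
        ring
      linear_combination (-1 / 2 : ℂ) * a2 - (1 / 2 : ℂ) * F I * e3
    exact (mul_eq_zero.1 h1).resolve_left (pow_ne_zero _ fun h => by
      simpa using congrArg Complex.im h)
  have h1 : theta Q I ≠ 0 := by
    rw [← one_mul I, ← Complex.ofReal_one, theta_ray, Complex.ofReal_ne_zero]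
    exact ((summable_exp_normQ hQ one_pos).tsum_pos (fun v => (Real.exp_pos _).le) 0
      (Real.exp_pos _)).ne'
  exact pow_ne_zero m h1 h0

end FA.UnimodularTheta

end
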