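import Fermat.Agent.UnimodularTheta.Form
import Fermat.Agent.Gleason.Bound
import Fermat.Agent.Tau.JBound
import Fermat.Agent.Tau.Differential
import Fermat.Agent.Eisenstein.LevelOne
import Mathlib.LinearAlgebra.Basis.VectorSpace

/-!
# The bound of Mallows, Odlyzko and Sloane

If no vector has value `≤ 2 d`, `d = ⌊n / 24⌋ + 1`, then in `u = Δ / E₄³` the series
`E₄ ^ (-n/8)` has no term in `u ^ d`; by Bürmann's formula that term is
`-(n / 8 d) [q ^ (d - 1)] E₄' E₄ ^ (3 d - n/8 - 1) (∏ (1 - q ^ l)) ^ (-24 d)`, which is nonzero.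
-/

set_option autoImplicit false

noncomputable section

namespace FA.UnimodularTheta

open UpperHalfPlane hiding I
open Complex ModularForm EisensteinSeries PowerSeries ModularCurve
open scoped MatrixGroups ArithmeticFunction.sigma

variable {n : ℕ} {Q : Matrix (Fin n) (Fin n) ℤ}

/-- The rational series of `E₄`. -/
def ratE4 : ℚ⟦X⟧ := eisenstein4.map (Int.castRingHom ℚ)

/-- `∏ (1 - q ^ l) ^ 24`. -/
def ratEta : ℚ⟦X⟧ := dedekindEtaUnit.map (Int.castRingHom ℚ)

/-- Its inverse. -/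
def ratEtaInv : ℚ⟦X⟧ := dedekindEtaUnitInv.map (Int.castRingHom ℚ)

theorem hasQ_E4_series : FA.Eis.HasQ 1 ⇑E₄ (ratE4.map (algebraMap ℚ ℂ)) := by
  have h : qExpansion 1 ⇑E₄ = ratE4.map (algebraMap ℚ ℂ) := by
    ext l
    rw [EisensteinSeries.E_qExpansion_coeff (by norm_num) ⟨2, rfl⟩,
      show bernoulli 4 = -1 / 30 by decide +kernel, ratE4, coeff_map, coeff_map, eisenstein4,
      coeff_mk, ArithmeticFunction.sigma_apply]
    split_ifs with h
    · simp
    · simp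
      norm_num
  exact h ▸ FA.Eis.hasQ_modularForm E₄

theorem hasQ_delta_series :
    FA.Eis.HasQ 1 ModularForm.discriminant ((X * ratEta).map (algebraMap ℚ ℂ)) := by
  have h : (X * ratEta).map (algebraMap ℚ ℂ) = FA.Tau.deltaInt.map (Int.castRingHom ℂ) := by
    ext l
    rw [show X * ratEta = FA.Tau.deltaInt.map (Int.castRingHom ℚ) by
      simp [ratEta, FA.Tau.deltaInt]]
    simp [coeff_map]
  exact h ▸ FA.Tau.hasQ_discriminant

theorem exists_rat_expansion (hQ : IsEvenUnimodular Q) : ∃ a : ℕ → ℚ,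
    PowerSeries.mk (fun l => (repCount Q l : ℚ)) =
      ∑ j ∈ Finset.range (n / 8 / 3 + 1),
        PowerSeries.C (a j) * (ratE4 ^ (n / 8 - 3 * j) * (X * ratEta) ^ j) := by
  obtain ⟨a, -, ha⟩ := Gleason.exists_decomposition (n / 8) (thetaForm hQ)
  have hR : FA.Eis.HasQ 1 ⇑(thetaForm hQ)
      ((PowerSeries.mk fun l => (repCount Q l : ℚ)).map (algebraMap ℚ ℂ)) := by
    intro z
    refine (hasSum_theta hQ z).congr_fun fun l => ?_
    simp
  have hS : FA.Eis.HasQ 1 ⇑(thetaForm hQ) (∑ j ∈ Finset.range (n / 8 / 3 + 1),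
      a j • (ratE4.map (algebraMap ℚ ℂ) ^ (n / 8 - 3 * j) *
        (X * ratEta).map (algebraMap ℚ ℂ) ^ j)) := by
    rw [show (⇑(thetaForm hQ) : ℍ → ℂ) = ∑ j ∈ Finset.range (n / 8 / 3 + 1),
        a j • ((⇑E₄) ^ (n / 8 - 3 * j) * ModularForm.discriminant ^ j) by
      funext z
      simp [ha z, Finset.sum_apply]]
    exact FA.Eis.HasQ.sum _ fun j _ =>
      ((hasQ_E4_series.pow one_pos _).mul one_pos (hasQ_delta_series.pow one_pos _)).smul _
  have h := FA.Eis.HasQ.unique one_pos hR hS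
  obtain ⟨ψ, hψ⟩ := (Algebra.linearMap ℚ ℂ).exists_leftInverse_of_injective
    (LinearMap.ker_eq_bot.2 (algebraMap ℚ ℂ).injective)
  have hψ1 : ∀ c : ℚ, ψ (algebraMap ℚ ℂ c) = c := fun c => LinearMap.congr_fun hψ c
  refine ⟨fun j => ψ (a j), ?_⟩
  ext l
  have hl := congrArg (fun A : ℂ⟦X⟧ => ψ (coeff l A)) h
  simp only [← map_pow, ← map_mul, map_sum, coeff_smul, coeff_map, smul_eq_mul, hψ1] at hl
  rw [hl, map_sum]
  refine Finset.sum_congr rfl fun j _ => ?_
  rw [coeff_C_mul, mul_comm (a j), ← Algebra.smul_def, map_smul, smul_eq_mul]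
  exact mul_comm _ _

theorem exists_normQ_le (hQ : IsEvenUnimodular Q) (hn : 0 < n) :
    ∃ v : Fin n → ℤ, v ≠ 0 ∧ normQ Q v ≤ 2 * ((n / 24 : ℕ) : ℤ) + 2 := by
  by_contra hcon
  push Not at hcon
  obtain ⟨a, ha⟩ := exists_rat_expansion hQ
  obtain ⟨j₀, hj₀⟩ := eight_dvd hQ
  obtain ⟨m, hm⟩ : ∃ m, m = n / 8 := ⟨_, rfl⟩
  rw [← hm] at ha
  obtain ⟨d, hd⟩ : ∃ d, d = m / 3 + 1 := ⟨_, rfl⟩
  have hrep : ∀ l, 1 ≤ l → l ≤ d → repCount Q l = 0 := fun l hl hld => by
    have h0 : IsEmpty {v : Fin n → ℤ // normQ Q v = 2 * (l : ℤ)} := ⟨fun v => by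
      have hv0 : v.1 ≠ 0 := fun h => by
        have h2 := v.2
        rw [h] at h2
        simp [normQ] at h2
        omega
      have h1 := hcon v.1 hv0
      have h2 := v.2
      omega⟩
    exact Nat.card_of_isEmpty
  obtain ⟨g, hg⟩ : ∃ g, g = ratE4 := ⟨_, rfl⟩
  obtain ⟨p, hp⟩ : ∃ p, p = ratEta := ⟨_, rfl⟩
  obtain ⟨pi, hpi⟩ : ∃ pi, pi = ratEtaInv := ⟨_, rfl⟩
  rw [← hg, ← hp] at ha
  have hQ1 : (X : ℚ⟦X⟧) ^ (d + 1) ∣ 1 - PowerSeries.mk (fun l => (repCount Q l : ℚ)) := by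
    refine PowerSeries.X_pow_dvd_iff.2 fun i hi => ?_
    rw [map_sub, coeff_mk, coeff_one]
    rcases Nat.eq_zero_or_pos i with rfl | h
    · simp [repCount_zero hQ]
    · simp [hrep i h (by omega), h.ne']
  obtain ⟨R, hR⟩ := hQ1
  have hgc : constantCoeff g = 1 := by
    rw [hg, ratE4, ← coeff_zero_eq_constantCoeff_apply, coeff_map,
      coeff_zero_eq_constantCoeff_apply, constantCoeff_eisenstein4, map_one]
  have hgi : g⁻¹ * g = 1 := PowerSeries.inv_mul_cancel _ (by rw [hgc]; norm_num)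
  have hpp : pi * p = 1 := by
    rw [hpi, hp, ratEta, ratEtaInv, ← map_mul, mul_comm, dedekindEtaUnit_mul_inv, map_one]
  have hinv : g ^ 3 * pi * (g⁻¹ ^ 3 * p) = 1 := by
    rw [show g ^ 3 * pi * (g⁻¹ ^ 3 * p) = (g⁻¹ * g) ^ 3 * (pi * p) by ring, hgi, hpp, one_pow,
      one_mul]
  have hexp : g⁻¹ ^ m = ∑ j ∈ Finset.range (m / 3 + 1),
      PowerSeries.C (a j) * (X ^ j * (g⁻¹ ^ 3 * p) ^ j) + X ^ (d + 1) * (R * g⁻¹ ^ m) := by
    rw [← mul_assoc (X ^ (d + 1) : ℚ⟦X⟧), ← hR, sub_mul, one_mul, ha, Finset.sum_mul,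
      ← sub_eq_iff_eq_add, sub_sub_cancel]
    refine Finset.sum_congr rfl fun j hj => ?_
    rw [Finset.mem_range] at hj
    rw [mul_pow, mul_pow, ← pow_mul, show g⁻¹ ^ m = g⁻¹ ^ (m - 3 * j) * g⁻¹ ^ (3 * j) by
      rw [← pow_add]; congr 1; omega]
    linear_combination (PowerSeries.C (a j) * (X ^ j * (g⁻¹ ^ (3 * j) * p ^ j))) *
      ((mul_pow g⁻¹ g (m - 3 * j)).symm.trans (by rw [hgi, one_pow]))
  have hres : coeff (d - 1) (derivative ℚ (g⁻¹ ^ m) * (g ^ 3 * pi) ^ d) = 0 := by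
    rw [hexp, map_add, map_sum, add_mul, map_add, Finset.sum_mul, map_sum]
    rw [Finset.sum_eq_zero fun j hj => ?_, zero_add]
    · rw [Derivation.leibniz, smul_eq_mul, smul_eq_mul, PowerSeries.derivative_pow, derivative_X,
        mul_one, Nat.add_sub_cancel]
      refine PowerSeries.X_pow_dvd_iff.1 (show (X : ℚ⟦X⟧) ^ d ∣ _ from Dvd.intro
        ((X * derivative ℚ (R * g⁻¹ ^ m) + R * g⁻¹ ^ m * ((d + 1 : ℕ) : ℚ⟦X⟧)) *
          (g ^ 3 * pi) ^ d) ?_) _ (by omega)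
      ring
    · rw [Derivation.leibniz, derivative_C, smul_zero, add_zero, smul_eq_mul, mul_assoc,
        PowerSeries.coeff_C_mul,
        Gleason.coeff_derivative_pow hinv (by rw [Finset.mem_range] at hj; omega), mul_zero]
  have hm0 : m ≠ 0 := by omega
  have hval : derivative ℚ (g⁻¹ ^ m) * (g ^ 3 * pi) ^ d = PowerSeries.C (-(m : ℚ)) *
      (derivative ℚ g * g ^ (3 * d - (m + 1)) * pi ^ d) := by
    obtain ⟨m', hm'⟩ : ∃ m', m = m' + 1 := ⟨m - 1, by omega⟩
    rw [hm', PowerSeries.derivative_pow, PowerSeries.derivative_inv', Nat.add_sub_cancel, mul_pow,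
      ← pow_mul, show g ^ (3 * d) = g ^ (3 * d - (m' + 1 + 1)) * g ^ (m' + 2) by
        rw [← pow_add]; congr 1; omega, map_neg, map_natCast]
    linear_combination (-((m' + 1 : ℕ) : ℚ⟦X⟧) * derivative ℚ g *
      g ^ (3 * d - (m' + 1 + 1)) * pi ^ d) *
      ((mul_pow g⁻¹ g (m' + 2)).symm.trans (by rw [hgi, one_pow]))
  rw [hval, PowerSeries.coeff_C_mul, mul_eq_zero, neg_eq_zero, Nat.cast_eq_zero,
    or_iff_right hm0] at hres
  have hg0 : ∀ i, 0 ≤ coeff i g := fun i => by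
    rw [hg, ratE4, coeff_map, eq_intCast]
    exact_mod_cast FA.JBound.nonNeg_eisenstein4 i
  have hdg : ∀ i, 0 ≤ coeff i (derivative ℚ g) := fun i => by
    rw [PowerSeries.coeff_derivative]
    exact mul_nonneg (hg0 _) (by positivity)
  have hdg0 : coeff 0 (derivative ℚ g) = 240 := by
    rw [PowerSeries.coeff_derivative, hg, ratE4, coeff_map, eisenstein4, coeff_mk]
    norm_num
  have hpi0 : ∀ i, 0 ≤ coeff i pi := fun i => by
    rw [hpi, ratEtaInv, coeff_map, FA.JBound.etaInv_eq, eq_intCast]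
    exact_mod_cast FA.JBound.nonNeg_partitionSeries.pow 24 i
  have hpart : ∀ k i, 1 ≤ coeff i (FA.Partition.partitionSeries ^ (k + 1)) := fun k i => by
    induction k with
    | zero =>
      rw [zero_add, pow_one, FA.Partition.partitionSeries, coeff_mk]
      exact_mod_cast Fintype.card_pos
    | succ k ih =>
      rw [pow_succ', coeff_mul]
      refine le_trans ?_ (Finset.single_le_sum (f := fun x : ℕ × ℕ =>
        coeff x.1 FA.Partition.partitionSeries * coeff x.2 (FA.Partition.partitionSeries ^ (k + 1)))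
        (fun x _ => mul_nonneg (FA.JBound.nonNeg_partitionSeries _)
          (FA.JBound.nonNeg_partitionSeries.pow _ _))
        ((Finset.HasAntidiagonal.mem_antidiagonal (a := (0, i))).2 (zero_add i)))
      have h0 : coeff 0 FA.Partition.partitionSeries = 1 := by
        rw [FA.Partition.partitionSeries, coeff_mk]
        simp
      rw [h0, one_mul]
      exact ih
  have hA := Gleason.mul_coeff_le
    (Gleason.coeff_mul_nonneg hdg (Gleason.coeff_pow_nonneg hg0 (3 * d - (m + 1))))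
    (Gleason.coeff_pow_nonneg hpi0 d) (d - 1)
  rw [hres, coeff_zero_eq_constantCoeff_apply, map_mul, map_pow, hgc, one_pow, mul_one,
    ← coeff_zero_eq_constantCoeff_apply, hdg0] at hA
  have h1 : (1 : ℚ) ≤ coeff (d - 1) (pi ^ d) := by
    rw [hpi, ratEtaInv, ← map_pow, coeff_map, FA.JBound.etaInv_eq, ← pow_mul,
      show 24 * d = 24 * d - 1 + 1 by omega, eq_intCast]
    exact_mod_cast hpart (24 * d - 1) (d - 1)
  linarith

end FA.UnimodularTheta

end
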