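import Fermat.Agent.UnimodularTheta.Lattice
import Fermat.Agent.Gleason.Ring
import Fermat.Agent.Poincare.Bound
import Fermat.Agent.Tau.Mordell
import Mathlib.NumberTheory.ModularForms.EisensteinSeries.QExpansion
import Mathlib.NumberTheory.LSeries.HurwitzZetaValues
import Mathlib.NumberTheory.LSeries.Nonvanishing

/-!
# The theta series as a form of level one

Its coefficients are the representation numbers: in weights `4` and `8` they are those of `E₄` and
`E₈`, in weight `12` one number is free, and in general they are those of `E_k` up to a cusp form.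
-/

set_option autoImplicit false

noncomputable section

namespace FA.UnimodularTheta

open UpperHalfPlane hiding I
open Complex Filter ModularForm EisensteinSeries CongruenceSubgroup
open scoped MatrixGroups Real Topology ArithmeticFunction.sigma

variable {n : ℕ} {Q : Matrix (Fin n) (Fin n) ℤ}

/-- The number of vectors of value `2 m`. -/
def repCount (Q : Matrix (Fin n) (Fin n) ℤ) (m : ℕ) : ℕ :=
  Nat.card {v : Fin n → ℤ // normQ Q v = 2 * (m : ℤ)}

theorem finite_rep (hQ : IsEvenUnimodular Q) (m : ℕ) :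
    {v : Fin n → ℤ | normQ Q v = 2 * (m : ℤ)}.Finite := by
  have h := (summable_exp_normQ hQ one_pos).tendsto_cofinite_zero.eventually
    (gt_mem_nhds (Real.exp_pos (-(π * 1 * ((2 * (m : ℤ) : ℤ) : ℝ)))))
  rw [Filter.eventually_cofinite] at h
  refine h.subset fun v (hv : normQ Q v = 2 * (m : ℤ)) => ?_
  show ¬ _ < _
  rw [hv]
  exact lt_irrefl _

theorem hasSum_theta (hQ : IsEvenUnimodular Q) (z : ℍ) :
    HasSum (fun m : ℕ => (repCount Q m : ℂ) • Function.Periodic.qParam (1 : ℝ) (z : ℂ) ^ m)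
      (theta Q z) := by
  have h := (summable_term hQ (z := (z : ℂ)) z.im_pos).hasSum
  rw [← (Equiv.sigmaFiberEquiv (halfNorm Q)).hasSum_iff] at h
  refine h.sigma fun m => ?_
  have hset : ∀ v, halfNorm Q v = m ↔ normQ Q v = 2 * (m : ℤ) := fun v => by
    rw [two_mul_halfNorm hQ v]
    omega
  have : Fintype {v : Fin n → ℤ // halfNorm Q v = m} :=
    ((finite_rep hQ m).subset fun v (hv : halfNorm Q v = m) => (hset v).1 hv).fintype
  convert hasSum_fintype _ using 1
  rw [Finset.sum_congr rfl (g := fun _ => Function.Periodic.qParam (1 : ℝ) (z : ℂ) ^ m)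
    fun v _ => ?_]
  · rw [Finset.sum_const, repCount, ← Nat.card_congr (Equiv.subtypeEquivRight hset),
      Nat.card_eq_fintype_card, Finset.card_univ, smul_eq_mul, nsmul_eq_mul]
  · simp only [Function.comp_apply, Equiv.sigmaFiberEquiv_apply]
    rw [(hset v.1).1 v.2, Function.Periodic.qParam, ← Complex.exp_nat_mul, Complex.ofReal_one,
      div_one]
    congr 1
    push_cast
    ring

theorem theta_slash_S (hQ : IsEvenUnimodular Q) :
    (fun z : ℍ => theta Q z) ∣[((4 * (n / 8) : ℕ) : ℤ)] ModularGroup.S =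
      fun z : ℍ => theta Q z := by
  funext z
  have hz : (z : ℂ) ≠ 0 := UpperHalfPlane.ne_zero z
  rw [SlashInvariantForm.slash_S_apply]
  show theta Q (-(z : ℂ))⁻¹ * (z : ℂ) ^ (-((4 * (n / 8) : ℕ) : ℤ)) = theta Q z
  rw [show (-(z : ℂ))⁻¹ = -1 / (z : ℂ) by rw [inv_neg, neg_div, one_div],
    theta_inversion hQ z.im_pos]
  obtain ⟨j, hj⟩ := eight_dvd hQ
  rw [show n / 8 = j by omega, show (n : ℂ) / 2 = ((4 * j : ℕ) : ℂ) by rw [hj]; push_cast; ring,
    Complex.cpow_natCast, zpow_neg, zpow_natCast, mul_pow, pow_mul (-I),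
    show (-I) ^ 4 = 1 by rw [neg_pow, Complex.I_pow_four]; ring, one_pow, one_mul]
  field_simp

theorem theta_slash_T (hQ : IsEvenUnimodular Q) :
    (fun z : ℍ => theta Q z) ∣[((4 * (n / 8) : ℕ) : ℤ)] ModularGroup.T =
      fun z : ℍ => theta Q z := by
  funext z
  rw [ModularForm.SL_slash_apply, UpperHalfPlane.modular_T_smul, UpperHalfPlane.coe_vadd]
  simp only [denom, ModularGroup.T]
  rw [Complex.ofReal_one, add_comm (1 : ℂ) z, theta_add_one hQ]
  simp

/-- **The theta series**, a modular form of level one. -/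
def thetaForm (hQ : IsEvenUnimodular Q) : ModularForm 𝒮ℒ ((4 * (n / 8) : ℕ) : ℤ) where
  toFun z := theta Q z
  slash_action_eq' A hA := by
    obtain ⟨A, rfl⟩ := hA
    exact SlashInvariantForm.slash_action_generators_SL2Z (theta_slash_S hQ) (theta_slash_T hQ) A
  holo' := by
    rw [UpperHalfPlane.mdifferentiable_iff]
    refine DifferentiableOn.congr (f := theta Q)
      (fun w hw => (differentiableAt_theta hQ hw).differentiableWithinAt)
      fun w hw => by simp [ofComplex_apply_of_im_pos hw]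
  bdd_at_cusps' hc := by
    rw [Subgroup.IsArithmetic.isCusp_iff_isCusp_SL2Z] at hc
    refine (OnePoint.isBoundedAt_iff_forall_SL2Z hc).2 fun γ _ => ?_
    rw [SlashInvariantForm.slash_action_generators_SL2Z (theta_slash_S hQ) (theta_slash_T hQ) γ]
    exact UpperHalfPlane.isBoundedAtImInfty_of_hasSum_qExpansion one_pos (hasSum_theta hQ)

theorem coeff_thetaForm (hQ : IsEvenUnimodular Q) (m : ℕ) :
    (qExpansion 1 (thetaForm hQ)).coeff m = (repCount Q m : ℂ) :=
  (ModularFormClass.qExpansion_coeff_unique (c := fun m => (repCount Q m : ℂ)) (f := thetaForm hQ)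
    one_pos one_mem_strictPeriods_SL (hasSum_theta hQ) m).symm

theorem repCount_zero (hQ : IsEvenUnimodular Q) : repCount Q 0 = 1 := by
  rw [repCount, Nat.card_eq_one_iff_unique]
  refine ⟨⟨fun a b => Subtype.ext ?_⟩, ⟨⟨0, by simp [normQ]⟩⟩⟩
  have h : ∀ v : {v : Fin n → ℤ // normQ Q v = 2 * ((0 : ℕ) : ℤ)}, v.1 = 0 := fun v => by
    by_contra hv
    have h1 := hQ.pos v.1 hv
    have h2 := v.2
    omega
  rw [h a, h b]

theorem eq_of_coeff_zero_eq {m : ℕ} (hm : m < 3) (f g : ModularForm 𝒮ℒ ((4 * m : ℕ) : ℤ))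
    (h : (qExpansion 1 f).coeff 0 = (qExpansion 1 g).coeff 0) : (⇑f : ℍ → ℂ) = ⇑g := by
  obtain ⟨a, ha0, ha⟩ := Gleason.exists_decomposition m f
  obtain ⟨b, hb0, hb⟩ := Gleason.exists_decomposition m g
  funext z
  rw [ha, hb, show m / 3 = 0 by omega, Finset.sum_range_one, Finset.sum_range_one, ha0, hb0, h]

theorem repCount_eq_of_low {m : ℕ} (hm : m < 3) (hm0 : 0 < m) (hQ : IsEvenUnimodular Q)
    (hn : n = 8 * m) {l : ℕ} (hl : l ≠ 0) :
    (repCount Q l : ℂ) = -(2 * ((4 * m : ℕ) : ℂ) / bernoulli (4 * m)) * σ (4 * m - 1) l := by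
  have hk : 3 ≤ 4 * m := by omega
  have hev : Even (4 * m) := ⟨2 * m, by ring⟩
  have e := eq_of_coeff_zero_eq hm
    (ModularForm.mcast (show ((4 * (n / 8) : ℕ) : ℤ) = ((4 * m : ℕ) : ℤ) by omega) (thetaForm hQ))
    (E hk) (by
      rw [ModularForm.qExpansion_mcast, coeff_thetaForm, repCount_zero hQ, Nat.cast_one,
        E_qExpansion_coeff_zero hk hev])
  have hq := E_qExpansion_coeff hk hev l
  rw [← e, ModularForm.qExpansion_mcast, coeff_thetaForm, if_neg hl] at hq
  exact hq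

theorem repCount_eight (hQ : IsEvenUnimodular Q) (hn : n = 8) {l : ℕ} (hl : l ≠ 0) :
    repCount Q l = 240 * σ 3 l := by
  have h := repCount_eq_of_low (m := 1) (by norm_num) one_pos hQ (by omega) hl
  norm_num [show bernoulli 4 = -1 / 30 by decide +kernel] at h
  exact_mod_cast h

theorem repCount_sixteen (hQ : IsEvenUnimodular Q) (hn : n = 16) {l : ℕ} (hl : l ≠ 0) :
    repCount Q l = 480 * σ 7 l := by
  have h := repCount_eq_of_low (m := 2) (by norm_num) two_pos hQ (by omega) hl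
  norm_num [show bernoulli 8 = -1 / 30 by decide +kernel] at h
  exact_mod_cast h

/-- `f - E_k` for the theta series. -/
theorem exists_cuspForm (hQ : IsEvenUnimodular Q) (hn : 0 < n) :
    ∃ f : CuspForm (Gamma0 1) ((4 * (n / 8) : ℕ) : ℤ), ∀ l : ℕ, l ≠ 0 →
      (qExpansion 1 f).coeff l = (repCount Q l : ℂ) +
        2 * ((4 * (n / 8) : ℕ) : ℂ) / bernoulli (4 * (n / 8)) * σ (4 * (n / 8) - 1) l := by
  obtain ⟨j, hj⟩ := eight_dvd hQ
  have hk : 3 ≤ 4 * (n / 8) := by omega
  have hev : Even (4 * (n / 8)) := ⟨2 * (n / 8), by ring⟩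
  have hq : ∀ l, (qExpansion 1 ⇑(thetaForm hQ - E hk)).coeff l =
      (repCount Q l : ℂ) - (qExpansion 1 (E hk)).coeff l := fun l => by
    rw [FunLike.coe_sub, ModularForm.qExpansion_sub one_pos one_mem_strictPeriods_SL, map_sub,
      coeff_thetaForm]
  refine ⟨CuspForm.mcast rfl (toCuspForm (thetaForm hQ - E hk) (by
    rw [hq, repCount_zero hQ, E_qExpansion_coeff_zero hk hev, Nat.cast_one, sub_self]))
    FA.EisCong.gamma0_one_coe, fun l hl => ?_⟩
  show (qExpansion 1 ⇑(thetaForm hQ - E hk)).coeff l = _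
  rw [hq, E_qExpansion_coeff hk hev, if_neg hl]
  ring

theorem repCount_twentyFour (hQ : IsEvenUnimodular Q) (hn : n = 24) {l : ℕ} (hl : l ≠ 0) :
    (repCount Q l : ℂ) = 65520 / 691 * (σ 11 l : ℂ) +
      ((repCount Q 1 : ℂ) - 65520 / 691) * (qExpansion 1 ModularForm.discriminant).coeff l := by
  obtain ⟨f, hf⟩ := exists_cuspForm hQ (by omega)
  obtain ⟨c, hc⟩ := CuspForm.exists_smul_discriminant_of_weight_eq_twelve
    (CuspForm.mcast (show ((4 * (n / 8) : ℕ) : ℤ) = 12 by omega) f FA.EisCong.gamma0_one_coe.symm)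
  have hq : ∀ j, (qExpansion 1 f).coeff j =
      c * (qExpansion 1 ModularForm.discriminant).coeff j := fun j => by
    have h : (⇑f : ℍ → ℂ) = c • ⇑CuspForm.discriminant :=
      (congrArg (fun g : CuspForm 𝒮ℒ 12 => (⇑g : ℍ → ℂ)) hc).symm
    rw [h, ModularForm.qExpansion_smul one_pos one_mem_strictPeriods_SL c CuspForm.discriminant,
      map_smul, smul_eq_mul]
    rfl
  have hB : (bernoulli 12 : ℂ) = -691 / 2730 := by
    rw [show bernoulli 12 = -691 / 2730 by decide +kernel]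
    norm_num
  have h1 := hf 1 one_ne_zero
  have h2 := hf l hl
  rw [hq] at h1 h2
  subst hn
  rw [FA.Tau.qExpansion_discriminant, FA.Tau.coeff_deltaInt_one, Int.cast_one, mul_one] at h1
  norm_num [hB, show σ 11 1 = 1 by simp [ArithmeticFunction.sigma_apply]] at h1 h2
  linear_combination -h2 +
    (qExpansion 1 ModularForm.discriminant).coeff l * h1

theorem bernoulli_ne_zero_even {k : ℕ} (hk : k ≠ 0) (hev : Even k) : (bernoulli k : ℂ) ≠ 0 := by
  obtain ⟨j, rfl⟩ := hev
  intro h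
  have hj : j ≠ 0 := by omega
  refine riemannZeta_ne_zero_of_one_le_re (s := 2 * (j : ℂ)) ?_ ?_
  · simp
    exact_mod_cast (by omega : 1 ≤ 2 * j)
  · rw [riemannZeta_two_mul_nat hj, show 2 * j = j + j by ring, h]
    simp

theorem repCount_asymptotic (hQ : IsEvenUnimodular Q) (hn : 0 < n) :
    ∃ C : ℝ, ∀ l : ℕ, 1 ≤ l →
      ‖(repCount Q l : ℂ) + 2 * ((4 * (n / 8) : ℕ) : ℂ) / bernoulli (4 * (n / 8)) *
          σ (4 * (n / 8) - 1) l‖ ≤
        C * (l : ℝ) ^ (((4 * (n / 8) : ℕ) : ℝ) / 2 - 1 / 4) * (1 + Real.log l) ^ 6 := by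
  obtain ⟨f, hf⟩ := exists_cuspForm hQ hn
  obtain ⟨C, hC⟩ := Poincare.isKloostermanBounded
    (by obtain ⟨j, hj⟩ := eight_dvd hQ; omega) f
  refine ⟨C, fun l hl => ?_⟩
  rw [← hf l (by omega)]
  have h := hC l hl
  simp only [Int.cast_natCast] at h
  exact h

theorem repCount_eventually_pos (hQ : IsEvenUnimodular Q) (hn : 0 < n) :
    ∀ᶠ l : ℕ in atTop, 0 < repCount Q l := by
  obtain ⟨C, hC⟩ := repCount_asymptotic hQ hn
  obtain ⟨j, hj⟩ := eight_dvd hQ
  set k := 4 * (n / 8) with hk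
  have hk4 : 4 ≤ k := by omega
  set β : ℝ := ‖(2 * (k : ℂ) / bernoulli k)‖ with hβ
  have hβ0 : 0 < β := norm_pos_iff.2 (div_ne_zero (by norm_num; omega)
    (bernoulli_ne_zero_even (by omega) ⟨2 * (n / 8), by omega⟩))
  filter_upwards [eventually_ge_atTop 3, tendsto_natCast_atTop_atTop.eventually
    ((isLittleO_log_rpow_rpow_atTop 6 (by norm_num : (0 : ℝ) < 1 / 4)).def
      (show 0 < β / (64 * (|C| + 1)) by positivity))] with l hl hlog
  by_contra hr
  have h := hC l (by omega)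
  rw [show repCount Q l = 0 by omega, Nat.cast_zero, zero_add, norm_mul, ← hβ,
    Complex.norm_natCast] at h
  have hl0 : (0 : ℝ) < l := Nat.cast_pos.2 (by omega)
  have hσ : (l : ℝ) ^ (k - 1) ≤ (σ (k - 1) l : ℝ) := by
    rw [ArithmeticFunction.sigma_apply]
    exact_mod_cast Finset.single_le_sum (f := fun d => d ^ (k - 1)) (fun d _ => Nat.zero_le _)
      (Nat.mem_divisors.2 ⟨dvd_rfl, by omega⟩)
  have hL1 : 1 ≤ Real.log l := by
    rw [Real.le_log_iff_exp_le hl0]
    exact Real.exp_one_lt_three.le.trans (by exact_mod_cast hl)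
  have hL : (1 + Real.log l) ^ 6 ≤ 64 * Real.log l ^ 6 := by
    calc (1 + Real.log l) ^ 6 ≤ (2 * Real.log l) ^ 6 := by gcongr; linarith
      _ = _ := by ring
  rw [Real.norm_of_nonneg (Real.rpow_nonneg (by linarith) _),
    Real.norm_of_nonneg (by positivity), Real.rpow_ofNat, div_mul_eq_mul_div,
    le_div_iff₀ (by positivity)] at hlog
  have hsplit : (l : ℝ) ^ ((k : ℝ) / 2 - 1 / 4) * (l : ℝ) ^ (1 / 4 : ℝ) ≤ (l : ℝ) ^ (k - 1) := by
    rw [← Real.rpow_add hl0, ← Real.rpow_natCast _ (k - 1), Nat.cast_sub (by omega)]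
    refine Real.rpow_le_rpow_of_exponent_le (by exact_mod_cast (by omega : 1 ≤ l)) ?_
    have : (4 : ℝ) ≤ k := by exact_mod_cast hk4
    push_cast
    linarith
  set P := (l : ℝ) ^ ((k : ℝ) / 2 - 1 / 4) with hP
  set L6 := Real.log l ^ 6 with hL6
  have hP0 : 0 < P := Real.rpow_pos_of_pos hl0 _
  have hL0 : 0 < L6 := by positivity
  have h1 : β * (P * (l : ℝ) ^ (1 / 4 : ℝ)) ≤ |C| * 64 * (P * L6) := by
    calc β * (P * (l : ℝ) ^ (1 / 4 : ℝ)) ≤ β * (σ (k - 1) l : ℝ) :=
          mul_le_mul_of_nonneg_left (hsplit.trans hσ) hβ0.le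
      _ ≤ C * P * (1 + Real.log l) ^ 6 := h
      _ ≤ |C| * P * (64 * L6) := by gcongr; exact le_abs_self C
      _ = _ := by ring
  nlinarith [mul_pos hP0 hL0]

end FA.UnimodularTheta

end
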